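import Fermat.Agent.S34.T0
import Fermat.Agent.S34.DAbs

set_option autoImplicit false

/-!
# S33 / Mv / Local : (M1) + (M4) of the moving lemma

`τ` inertia-like, `g` locally (at the closed point `n`) a generic unit times an `m`-th power `h₀ ^ m`:
then `τ g / g = u * (τ h₀ / h₀) ^ m` with `u` a unit of the local ring at `n`.
-/

noncomputable section

namespace Fermat.Agent.S33.Mv

open Polynomial IntermediateField Fermat.Agent.S18 Fermat.Agent.S34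

variable {R K F : Type} [CommRing R] [IsDomain R] [IsDiscreteValuationRing R] [Field K] [CharZero K]
  [Algebra R K] [IsFractionRing R K] [Field F] [Algebra K F]
  {ϖ : R} {x : F} {Vi V0 : ValuationSubring F}

/-! ### calculus of `LocUnit` -/

theorem LocUnit.one' {t : F} (n : Ideal (CInt R K t)) [n.IsPrime] : LocUnit n (1 : F) :=
  ⟨one_ne_zero, InLoc.of_mem n (CInt R K t).one_mem, by
    rw [inv_one]; exact InLoc.of_mem n (CInt R K t).one_mem⟩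

theorem LocUnit.mul' {t : F} {n : Ideal (CInt R K t)} [n.IsPrime] {y z : F} (hy : LocUnit n y)
    (hz : LocUnit n z) : LocUnit n (y * z) :=
  ⟨mul_ne_zero hy.1 hz.1, hy.2.1.mul hz.2.1, by rw [mul_inv]; exact hy.2.2.mul hz.2.2⟩

theorem LocUnit.inv' {t : F} {n : Ideal (CInt R K t)} {z : F} (hz : LocUnit n z) :
    LocUnit n z⁻¹ :=
  ⟨inv_ne_zero hz.1, hz.2.2, by rw [inv_inv]; exact hz.2.1⟩

theorem LocUnit.div' {t : F} {n : Ideal (CInt R K t)} [n.IsPrime] {y z : F} (hy : LocUnit n y)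
    (hz : LocUnit n z) : LocUnit n (y / z) := by
  rw [div_eq_mul_inv]; exact LocUnit.mul' hy (LocUnit.inv' hz)

theorem LocUnit.pow' {t : F} {n : Ideal (CInt R K t)} [n.IsPrime] {z : F} (hz : LocUnit n z)
    (k : ℕ) : LocUnit n (z ^ k) :=
  ⟨pow_ne_zero _ hz.1, hz.2.1.pow k, by rw [← inv_pow]; exact hz.2.2.pow k⟩

/-- `τ ε / ε` is a unit of the local ring at `n` for every generic unit `ε`. -/
theorem locUnit_map_div (hϖ : Irreducible ϖ) (hB : Branches (K := K) ϖ x Vi V0) {τ : F ≃+* F}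
    (hτ : InertiaLike (R := R) (K := K) x Vi V0 τ) {t : F} (ht : t = x ∨ t = x⁻¹)
    {n : Ideal (CInt R K t)} (hn : IsClosedPt ϖ n) {ε : F} (hε : GenUnit ϖ n ε) :
    LocUnit n (τ ε / ε) := by
  haveI : n.IsPrime := hn.max.isPrime
  obtain ⟨hε0, k, hk1, hk2⟩ := hε
  have hτε : τ ε ≠ 0 := (map_ne_zero_iff τ τ.injective).2 hε0
  have he0 : τ ε / ε ≠ 0 := div_ne_zero hτε hε0
  have hgen : GenUnit ϖ n (τ ε / ε) := by
    refine ⟨he0, k + k, ?_, ?_⟩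
    · have := (t0_inLoc_pow_mul hϖ hB hτ ht hn hk1).mul hk2
      have e : rE R K F ϖ ^ (k + k) * (τ ε / ε)
          = rE R K F ϖ ^ k * τ ε * (rE R K F ϖ ^ k * ε⁻¹) := by
        rw [pow_add, div_eq_mul_inv]; ring
      rwa [e]
    · have := (t0_inLoc_pow_mul hϖ hB hτ ht hn hk2).mul hk1
      have e : rE R K F ϖ ^ (k + k) * (τ ε / ε)⁻¹
          = rE R K F ϖ ^ k * τ ε⁻¹ * (rE R K F ϖ ^ k * ε) := by
        rw [pow_add, inv_div, div_eq_mul_inv, map_inv₀]; ring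
      rwa [e]
  have hui := hτ.unit_i hϖ hB hε0
  have hu0 := hτ.unit_0 hϖ hB hε0
  exact hB.locUnit_of_genUnit hϖ ht hgen hui.1 hui.2 hu0.1 hu0.2

/-- **(M1)**. -/
theorem m1 (hϖ : Irreducible ϖ) (hB : Branches (K := K) ϖ x Vi V0) {τ : F ≃+* F}
    (hτ : InertiaLike (R := R) (K := K) x Vi V0 τ) {t : F} (ht : t = x ∨ t = x⁻¹)
    {n : Ideal (CInt R K t)} (hn : IsClosedPt ϖ n) {m : ℕ} {g : F} (hg : LocPow ϖ n m g) :
    ∃ u h₀ : F, h₀ ≠ 0 ∧ GenUnit ϖ n (g / h₀ ^ m) ∧ LocUnit n u ∧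
      τ g / g = u * (τ h₀ / h₀) ^ m ∧
      (τ h₀ / h₀ ∈ Vi ∧ (τ h₀ / h₀)⁻¹ ∈ Vi) ∧ (τ h₀ / h₀ ∈ V0 ∧ (τ h₀ / h₀)⁻¹ ∈ V0) := by
  obtain ⟨h₀, ε, hh₀, hε, rfl⟩ := hg
  refine ⟨τ ε / ε, h₀, hh₀, ?_, locUnit_map_div hϖ hB hτ ht hn hε, ?_, hτ.unit_i hϖ hB hh₀,
    hτ.unit_0 hϖ hB hh₀⟩
  · rwa [mul_div_assoc, div_self (pow_ne_zero _ hh₀), mul_one]
  · rw [map_mul, map_pow, mul_div_mul_comm, div_pow]

/-- **(M4)**: if `h / λ` is a local unit at `n`, so is `(τ g / g) / h ^ m`. -/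
theorem m4 {t : F} {n : Ideal (CInt R K t)} [n.IsPrime] {m : ℕ} {G u l h : F}
    (hu : LocUnit n u) (hG : G = u * l ^ m) (hh : LocUnit n (h / l)) (hl : l ≠ 0) :
    LocUnit n (G / h ^ m) := by
  have hh0 : h ≠ 0 := by
    intro h0
    exact hh.1 (by rw [h0, zero_div])
  have e : G / h ^ m = u * ((h / l) ^ m)⁻¹ := by
    rw [hG, div_pow]
    field_simp
  rw [e]
  exact LocUnit.mul' hu (LocUnit.inv' (LocUnit.pow' hh m))

end Fermat.Agent.S33.Mv
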