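import Mathlib

/-!
# S33 / Mv / SemiLocal : the semi-local lemma (M2), pure algebra

`F` a field, `(O k, M k)_{k : κ}` finitely many "local rings inside `F`" (`O k` a subring, `M k ⊆ O k` closed under
addition and under multiplication by `O k`, `1 + M k` consists of units of `O k`), `lam k ∈ Fˣ`.
If for `k ≠ k'` there is `c ∈ ⋂ O j`, a unit of `O k`, with `c * lam k / lam k' ∈ M k'`, then there is ONE `h ∈ Fˣ`
with `h / lam k ∈ (O k)ˣ` for all `k`.
-/

set_option autoImplicit false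

namespace Fermat.Agent.S33.Mv

theorem semilocal {F : Type*} [Field F] {κ : Type*} [Fintype κ] [DecidableEq κ]
    (O : κ → Subring F) (M : κ → Set F)
    (M_zero : ∀ k, (0 : F) ∈ M k)
    (M_add : ∀ k, ∀ y z : F, y ∈ M k → z ∈ M k → y + z ∈ M k)
    (M_mul : ∀ k, ∀ y z : F, y ∈ O k → z ∈ M k → y * z ∈ M k)
    (M_sub : ∀ k, ∀ z ∈ M k, z ∈ O k)
    (one_add_inv : ∀ k, ∀ z ∈ M k, (1 + z)⁻¹ ∈ O k)
    (one_add_ne : ∀ k, ∀ z ∈ M k, (1 : F) + z ≠ 0)
    (lam : κ → F) (hlam : ∀ k, lam k ≠ 0)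
    (H : ∀ k k', k ≠ k' → ∃ c : F, c ≠ 0 ∧ (∀ j, c ∈ O j) ∧ c⁻¹ ∈ O k ∧ c * lam k / lam k' ∈ M k') :
    ∃ h : F, h ≠ 0 ∧ ∀ k, h / lam k ∈ O k ∧ (h / lam k)⁻¹ ∈ O k := by
  classical
  by_cases hemp : IsEmpty κ
  · exact ⟨1, one_ne_zero, fun k => (hemp.false k).elim⟩
  rw [not_isEmpty_iff] at hemp
  -- choose the `c`
  have H' : ∀ k k', ∃ c : F, k ≠ k' → (c ≠ 0 ∧ (∀ j, c ∈ O j) ∧ c⁻¹ ∈ O k ∧ c * lam k / lam k' ∈ M k') := by
    intro k k'
    by_cases hk : k = k'
    · exact ⟨1, fun h => absurd hk h⟩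
    · obtain ⟨c, hc⟩ := H k k' hk
      exact ⟨c, fun _ => hc⟩
  choose c hc using H'
  set hk : κ → F := fun k => lam k * ∏ k' ∈ Finset.univ.erase k, c k k' with hhk
  have key : ∀ j, ∃ u z : F, u ≠ 0 ∧ u ∈ O j ∧ u⁻¹ ∈ O j ∧ z ∈ M j ∧ (∑ k, hk k) / lam j = u * (1 + z) := by
    intro j
    set u : F := ∏ k' ∈ Finset.univ.erase j, c j k' with hu
    have hu0 : u ≠ 0 := Finset.prod_ne_zero_iff.2 fun k' hk' =>
      (hc j k' (Finset.ne_of_mem_erase hk').symm).1
    have huO : u ∈ O j := Subring.prod_mem _ fun k' hk' =>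
      (hc j k' (Finset.ne_of_mem_erase hk').symm).2.1 j
    have huI : u⁻¹ ∈ O j := by
      rw [hu, ← Finset.prod_inv_distrib]
      exact Subring.prod_mem _ fun k' hk' => (hc j k' (Finset.ne_of_mem_erase hk').symm).2.2.1
    have hterm : ∀ k ∈ Finset.univ.erase j, hk k / lam j ∈ M j := by
      intro k hkj
      have hne : k ≠ j := Finset.ne_of_mem_erase hkj
      have hj : j ∈ Finset.univ.erase k := Finset.mem_erase.2 ⟨hne.symm, Finset.mem_univ _⟩
      have h1 : hk k / lam j = (∏ k' ∈ (Finset.univ.erase k).erase j, c k k') * (c k j * lam k / lam j) := by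
        rw [hhk]
        simp only
        rw [← Finset.mul_prod_erase _ _ hj]
        ring
      rw [h1]
      refine M_mul j _ _ (Subring.prod_mem _ fun k' hk' => ?_) (hc k j hne).2.2.2
      have : k' ≠ k := Finset.ne_of_mem_erase (Finset.mem_of_mem_erase hk')
      exact (hc k k' this.symm).2.1 j
    have hsum : ∀ s : Finset κ, (∀ k ∈ s, hk k / lam j ∈ M j) → ∑ k ∈ s, hk k / lam j ∈ M j := by
      intro s
      induction s using Finset.induction_on with
      | empty => intro _; simpa using M_zero j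
      | insert a s ha ih =>
        intro h
        rw [Finset.sum_insert ha]
        exact M_add j _ _ (h a (Finset.mem_insert_self _ _))
          (ih fun k hk' => h k (Finset.mem_insert_of_mem hk'))
    have hz := hsum _ hterm
    refine ⟨u, u⁻¹ * ∑ k ∈ Finset.univ.erase j, hk k / lam j, hu0, huO, huI, M_mul j _ _ huI hz, ?_⟩
    rw [Finset.sum_div, ← Finset.add_sum_erase _ _ (Finset.mem_univ j), mul_add, mul_one,
      ← mul_assoc, mul_inv_cancel₀ hu0, one_mul]
    congr 1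
    rw [hhk]
    simp only
    rw [mul_comm, mul_div_assoc, div_self (hlam j), mul_one]
  refine ⟨∑ k, hk k, ?_, ?_⟩
  · obtain ⟨j⟩ := hemp
    obtain ⟨u, z, hu0, -, -, hz, he⟩ := key j
    intro h0
    rw [h0, zero_div] at he
    exact mul_ne_zero hu0 (one_add_ne j z hz) he.symm
  · intro j
    obtain ⟨u, z, hu0, huO, huI, hz, he⟩ := key j
    rw [he]
    refine ⟨(O j).mul_mem huO ((O j).add_mem (O j).one_mem (M_sub j z hz)), ?_⟩
    rw [mul_inv]
    exact (O j).mul_mem huI (one_add_inv j z hz)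

end Fermat.Agent.S33.Mv
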